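import Fermat.Agent.S30.Ramif.PlaceDual

set_option autoImplicit false

/-!
# Model input (ii) at a closed point, concrete carrier `E[u] = Algebra.adjoin E {u} ⊆ L`

`E` a field of characteristic zero, `L / E` a field, `u : L` transcendental over `E` with
`L / E(u)` finite.  For an irreducible `f : E[X]` such that every place of `L / E` over the closed
point `f(u) = 0` is unramified (`v.ord (f(u)) = 1`), the integral closure of `E[u]` in `L` is
trace-self-dual at `f(u)`:

`x` integral over `E[u]`, `Tr_{L/E(u)}(x y) ∈ f(u) E[u]` for all integral `y`  ⟹  `x / f(u)` integral.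

Everything is stated inside `L` (predicates `IsIntegral (Algebra.adjoin E {u})`), so that it can be
consumed by any packaging of the integral closure.
-/

namespace Fermat.Agent.S30.Ramif

open AlgebraicCurve IsDedekindDomain IntermediateField Polynomial
open scoped IntermediateField.algebraAdjoinAdjoin

section Concrete

variable (E : Type*) {L : Type*} [Field E] [Field L] [Algebra E L] (u : L)

/-- `E[u]` is a PID when `u` is transcendental. -/
theorem adjoin_isPrincipalIdealRing (hu : Transcendental E u) :
    IsPrincipalIdealRing (Algebra.adjoin E {u}) :=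
  IsPrincipalIdealRing.of_surjective (Polynomial.algEquivOfTranscendental E u hu).toRingEquiv
    (Polynomial.algEquivOfTranscendental E u hu).surjective

/-- The element `f(u)` of `E[u]`. -/
noncomputable def polyGen (f : E[X]) : Algebra.adjoin E {u} :=
  ⟨aeval u f, aeval_mem_adjoin_singleton E u⟩

theorem polyGen_eq (hu : Transcendental E u) (f : E[X]) :
    polyGen E u f = Polynomial.algEquivOfTranscendental E u hu f := by
  apply Subtype.ext
  simp [polyGen, Polynomial.algEquivOfTranscendental_apply]

theorem polyGen_irreducible (hu : Transcendental E u) {f : E[X]} (hf : Irreducible f) :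
    Irreducible (polyGen E u f) := by
  rw [polyGen_eq E u hu f]
  exact (MulEquiv.irreducible_iff (Polynomial.algEquivOfTranscendental E u hu).toMulEquiv).mpr hf

theorem polyGen_mul (f g : E[X]) : polyGen E u (f * g) = polyGen E u f * polyGen E u g := by
  apply Subtype.ext
  simp [polyGen]

theorem exists_polyGen_eq (a : Algebra.adjoin E {u}) : ∃ w : E[X], polyGen E u w = a := by
  obtain ⟨a, ha⟩ := a
  rw [Algebra.adjoin_singleton_eq_range_aeval] at ha
  obtain ⟨w, rfl⟩ := ha
  exact ⟨w, rfl⟩

/-- **Model input (ii) at a closed point, places form ⇒ trace-self-duality.** -/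
theorem exists_isIntegral_eq_mul_of_places [CharZero E] (hu : Transcendental E u)
    [FiniteDimensional E⟮u⟯ L] (f : E[X]) (hf : Irreducible f)
    (hv : ∀ v : Place E L, 0 ≤ v.ord u → 0 < v.ord (aeval u f) → v.ord (aeval u f) = 1)
    (x : L) (hx : IsIntegral (Algebra.adjoin E {u}) x)
    (htr : ∀ y : L, IsIntegral (Algebra.adjoin E {u}) y →
      ∃ w : E[X], ((Algebra.trace E⟮u⟯ L (x * y) : E⟮u⟯) : L) = aeval u (f * w)) :
    ∃ z : L, IsIntegral (Algebra.adjoin E {u}) z ∧ x = aeval u f * z := by
  classical
  have hPID : IsPrincipalIdealRing (Algebra.adjoin E {u}) := adjoin_isPrincipalIdealRing E u hu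
  have hDedB : IsDedekindDomain (integralClosure (Algebra.adjoin E {u}) L) :=
    integralClosure.isDedekindDomain (Algebra.adjoin E {u}) E⟮u⟯ L
  have hFracB : IsFractionRing (integralClosure (Algebra.adjoin E {u}) L) L :=
    integralClosure.isFractionRing_of_finite_extension E⟮u⟯ L
  have hTower : IsScalarTower E (integralClosure (Algebra.adjoin E {u}) L) L :=
    IsScalarTower.of_algebraMap_eq (fun c => by simp [Algebra.algebraMap_eq_smul_one])
  let _ : Algebra ℚ (Algebra.adjoin E {u}) :=
    ((algebraMap E (Algebra.adjoin E {u})).comp (algebraMap ℚ E)).toAlgebra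
  set π : Algebra.adjoin E {u} := polyGen E u f with hπdef
  have hπirr : Irreducible π := polyGen_irreducible E u hu hf
  have hπ : π ≠ 0 := hπirr.ne_zero
  have hmax : (Ideal.span {π} : Ideal (Algebra.adjoin E {u})).IsMaximal :=
    PrincipalIdealRing.isMaximal_of_irreducible hπirr
  have huB : IsIntegral (Algebra.adjoin E {u}) u := by
    have : u = algebraMap (Algebra.adjoin E {u}) L ⟨u, Algebra.self_mem_adjoin_singleton E u⟩ := rfl
    rw [this]
    exact isIntegral_algebraMap
  have hv' : ∀ v : Place E L,
      (∀ c : integralClosure (Algebra.adjoin E {u}) L,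
        algebraMap (integralClosure (Algebra.adjoin E {u}) L) L c ∈ v.toValuationSubring) →
      0 < v.ord (algebraMap (Algebra.adjoin E {u}) L π) →
        v.ord (algebraMap (Algebra.adjoin E {u}) L π) = 1 := by
    intro v hvB hpos
    have h1 : u ∈ v.toValuationSubring := hvB ⟨u, huB⟩
    exact hv v (Fermat.Agent.S24.FF.ord_nonneg_of_mem v h1) hpos
  have hx' : ∀ y : integralClosure (Algebra.adjoin E {u}) L, ∃ w : Algebra.adjoin E {u},
      Algebra.trace E⟮u⟯ L
        (algebraMap (integralClosure (Algebra.adjoin E {u}) L) L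
          ((⟨x, hx⟩ : integralClosure (Algebra.adjoin E {u}) L) * y)) =
        algebraMap (Algebra.adjoin E {u}) E⟮u⟯ (π * w) := by
    intro y
    obtain ⟨w, hw⟩ := htr (y : L) y.2
    refine ⟨polyGen E u w, Subtype.ext ?_⟩
    rw [← polyGen_mul]
    exact hw
  obtain ⟨z, hz⟩ := exists_eq_mul_of_trace_mem_of_places (E := E) (K := E⟮u⟯) (L := L)
    π hπ hmax hv' ⟨x, hx⟩ hx'
  refine ⟨(z : L), z.2, ?_⟩
  exact congrArg (fun b : integralClosure (Algebra.adjoin E {u}) L => (b : L)) hz

end Concrete

end Fermat.Agent.S30.Ramif
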