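import Fermat.Agent.S30.Ramif.TraceDual
import Fermat.Agent.S24.FF.Dedekind

set_option autoImplicit false

/-!
# Places-form of "unramified at a closed point" ⇒ field-trace self-duality

`E` any field (the constant field, not necessarily algebraically closed), `L` a field over `E`,
`B` a Dedekind domain with fraction field `L` containing `E`.  Height-one primes of `B` are
places of `L / E` (Prelude `Place.ofHeightOneSpectrum`); we translate statements about
`Place.ord` into statements about powers of primes / ramification indices, and deduce the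
trace-self-duality of `Ramif.TraceDual` from a hypothesis on places.
-/

namespace Fermat.Agent.S30.Ramif

open AlgebraicCurve IsDedekindDomain WithZero

section Dictionary

variable {E L B : Type*} [Field E] [Field L] [Algebra E L]
  [CommRing B] [IsDedekindDomain B] [Algebra B L] [IsFractionRing B L]
  [Algebra E B] [IsScalarTower E B L]

/-- Elements of `B` lie in the valuation ring of the place of a height-one prime of `B`. -/
theorem algebraMap_mem_ofHeightOneSpectrum (w : HeightOneSpectrum B) (c : B) :
    algebraMap B L c ∈ (Place.ofHeightOneSpectrum (K := E) (F := L) w).toValuationSubring := by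
  rw [Place.ofHeightOneSpectrum_toValuationSubring]
  exact w.valuation_le_one c

/-- `b ∈ P ^ n ↔ n ≤ ord_P b`. -/
theorem mem_pow_iff_le_ord (w : HeightOneSpectrum B) {b : B} (hb : b ≠ 0) (n : ℕ) :
    b ∈ w.asIdeal ^ n ↔
      (n : ℤ) ≤ (Place.ofHeightOneSpectrum (K := E) (F := L) w).ord (algebraMap B L b) := by
  have hb' : algebraMap B L b ≠ 0 := by
    simpa using (IsFractionRing.injective B L).ne hb
  rw [Fermat.Agent.S24.FF.ord_ofHeightOneSpectrum (K := E) w hb', w.valuation_of_algebraMap,
    ← w.intValuation_le_pow_iff_mem]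
  have h0 : w.intValuation b ≠ 0 := w.intValuation_ne_zero b hb
  constructor
  · intro h
    have h1 := (WithZero.log_le_log h0 WithZero.exp_ne_zero).mpr h
    rw [WithZero.log_exp] at h1
    omega
  · intro h
    rw [← WithZero.log_le_log h0 WithZero.exp_ne_zero, WithZero.log_exp]
    omega

/-- The exact power of `P` dividing `b` is `ord_P b`. -/
theorem mem_pow_ord_and_not_mem_succ (w : HeightOneSpectrum B) {b : B} (hb : b ≠ 0) :
    b ∈ w.asIdeal ^
        ((Place.ofHeightOneSpectrum (K := E) (F := L) w).ord (algebraMap B L b)).toNat ∧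
      b ∉ w.asIdeal ^
        (((Place.ofHeightOneSpectrum (K := E) (F := L) w).ord (algebraMap B L b)).toNat + 1) := by
  have h0 : 0 ≤ (Place.ofHeightOneSpectrum (K := E) (F := L) w).ord (algebraMap B L b) := by
    have := (mem_pow_iff_le_ord (E := E) (L := L) w hb 0).mp (by simp)
    simpa using this
  constructor
  · rw [mem_pow_iff_le_ord (E := E) (L := L) w hb, Int.toNat_of_nonneg h0]
  · rw [mem_pow_iff_le_ord (E := E) (L := L) w hb]
    push_cast
    rw [Int.toNat_of_nonneg h0]
    omega

/-- If every place whose valuation ring contains `B` and at which `b` vanishes has `ord b = 1`,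
then `b ∉ P ^ 2` for every prime `P ∋ b` of `B`. -/
theorem not_mem_sq_of_ord {b : B} (hb : b ≠ 0)
    (hv : ∀ v : Place E L, (∀ c : B, algebraMap B L c ∈ v.toValuationSubring) →
      0 < v.ord (algebraMap B L b) → v.ord (algebraMap B L b) = 1)
    (P : Ideal B) (hP : P.IsPrime) (hbP : b ∈ P) : b ∉ P ^ 2 := by
  have hPbot : P ≠ ⊥ := by
    rintro rfl
    exact hb ((Ideal.mem_bot).mp hbP)
  let w : HeightOneSpectrum B := ⟨P, hP, hPbot⟩
  have h1 : 0 < (Place.ofHeightOneSpectrum (K := E) (F := L) w).ord (algebraMap B L b) :=
    (Fermat.Agent.S24.FF.mem_asIdeal_iff_ord_pos (K := E) (F := L) w hb).mp hbP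
  have h2 := hv _ (algebraMap_mem_ofHeightOneSpectrum (E := E) w) h1
  intro h3
  have h4 := (mem_pow_iff_le_ord (E := E) (L := L) w hb 2).mp h3
  rw [h2] at h4
  norm_num at h4

/-- Ramification index as an order: for a height-one prime `P` of `B`, an `A`-algebra structure
on `B` and `π : A` with nonzero image, the ramification index of `P` over `(π)` (Mathlib's
`Ideal.ramificationIdx'`) is `ord_P π`. -/
theorem ramificationIdx'_span_singleton_eq_ord {A : Type*} [CommRing A] [Algebra A B] (π : A)
    (hπ : algebraMap A B π ≠ 0) (w : HeightOneSpectrum B) :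
    ((Ideal.span {π} : Ideal A).ramificationIdx' w.asIdeal : ℤ) =
      (Place.ofHeightOneSpectrum (K := E) (F := L) w).ord
        (algebraMap B L (algebraMap A B π)) := by
  obtain ⟨h1, h2⟩ := mem_pow_ord_and_not_mem_succ (E := E) (L := L) w hπ
  have h0 : 0 ≤ (Place.ofHeightOneSpectrum (K := E) (F := L) w).ord
      (algebraMap B L (algebraMap A B π)) := by
    have := (mem_pow_iff_le_ord (E := E) (L := L) w hπ 0).mp (by simp)
    simpa using this
  have hmap : Ideal.map (algebraMap A B) (Ideal.span {π}) = Ideal.span {algebraMap A B π} := by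
    rw [Ideal.map_span, Set.image_singleton]
  rw [Ideal.ramificationIdx'_spec (n := ((Place.ofHeightOneSpectrum (K := E) (F := L) w).ord
      (algebraMap B L (algebraMap A B π))).toNat), Int.toNat_of_nonneg h0]
  · rw [hmap, Ideal.span_le, Set.singleton_subset_iff]
    exact h1
  · rw [hmap, Ideal.span_le, Set.singleton_subset_iff]
    exact h2

end Dictionary

section Places

variable {E A K L B : Type*} [Field E] [CommRing A] [Field K] [CommRing B] [Field L]
  [Algebra A K] [Algebra B L] [Algebra A B] [Algebra K L] [Algebra A L]
  [IsScalarTower A K L] [IsScalarTower A B L]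
  [IsDedekindDomain A] [IsFractionRing A K] [IsIntegralClosure B A L]
  [FiniteDimensional K L] [IsDedekindDomain B] [Module.IsTorsionFree A B]
  [IsFractionRing B L] [Algebra ℚ A]
  [Algebra E L] [Algebra E B] [IsScalarTower E B L]

/-- **Places-form of (ii) ⇒ field-trace self-duality.**  `(π)` a nonzero maximal ideal of the
Dedekind domain `A ⊇ ℚ`; `B` the integral closure of `A` in `L`; assume every place `v` of
`L / E` whose valuation ring contains `B` and at which `π` vanishes has `v.ord π = 1`
(unramified above the closed point `π`).  Then `(∀ y ∈ B, Tr_{L/K}(x y) ∈ π A) → x ∈ π B`. -/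
theorem exists_eq_mul_of_trace_mem_of_places (π : A) (hπ : π ≠ 0)
    (hmax : (Ideal.span {π} : Ideal A).IsMaximal)
    (hv : ∀ v : Place E L, (∀ c : B, algebraMap B L c ∈ v.toValuationSubring) →
      0 < v.ord (algebraMap A L π) → v.ord (algebraMap A L π) = 1)
    (x : B)
    (hx : ∀ y : B, ∃ w : A,
      Algebra.trace K L (algebraMap B L (x * y)) = algebraMap A K (π * w)) :
    ∃ z : B, x = algebraMap A B π * z := by
  have hinj : Function.Injective (algebraMap A B) := FaithfulSMul.algebraMap_injective A B
  have hπB : algebraMap A B π ≠ 0 := fun h => hπ (hinj (by rw [h, map_zero]))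
  have hAL : algebraMap A L π = algebraMap B L (algebraMap A B π) :=
    IsScalarTower.algebraMap_apply A B L π
  refine exists_eq_mul_of_trace_mem_of_not_mem_sq π hmax (fun P hP hπP => ?_) x hx
  refine not_mem_sq_of_ord (E := E) (L := L) hπB (fun v hvB hpos => ?_) P hP hπP
  rw [← hAL] at hpos ⊢
  exact hv v hvB hpos

end Places

end Fermat.Agent.S30.Ramif
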