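import Fermat.Agent.S24.Modular.M4
import Fermat.Agent.S24.Modular.M5
import Fermat.Agent.S24.Modular.M7

set_option autoImplicit false
set_option linter.style.haveILetI false

/-!
# Ramification data of `F_N / ℚ̄(j)` in place form (modular input (ii) of the S30 model theorem)

For a place `v` of `F_N = ℚ̄(j(q^d) : d ∣ N)` over `ℚ̄`:

* `ord_generic`   : over `j = a`, `a ≠ 0, 1728`, the place is unramified: `v.ord (j - a) = 1`;
* `ord_zero_dvd`  : over `j = 0` the ramification index divides `3`;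
* `ord_1728_dvd`  : over `j = 1728` the ramification index divides `2`;
* `ord_infty_dvd` : over `j = ∞` the ramification index divides `N`.

Everything is extracted from the landed S24 fibre analysis (`FibreCount`, `G3Adapter`,
`Modular.FinFibre`, `Puiseux.CuspWire`, `Cusp.Fibre`); no S24 file is modified.
-/

noncomputable section

open AlgebraicCurve IntermediateField

namespace Fermat.Agent.S30.Ramif

section Generic

variable {K F : Type*} [Field K] [Field F] [Algebra K F]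

/-- Generic divisibility of ramification indices: under the hypotheses of the S24 fibre count
`Generic.card_zeroPlaces_eq_card_orbits`, every place `v` over `x = 0` has `v.ord x ∣ s`. -/
theorem ord_dvd_of_embeddings [CharZero K]
    (x : F) (hx0 : x ≠ 0) (hfin : FiniteDimensional K⟮x⟯ F)
    (F₀ : Subalgebra K F) (hF₀ : ∀ f : F, ∃ a b : F₀, (b : F) ≠ 0 ∧ f * b = a)
    (num den : F₀) (hden : den ≠ 0) (hxnd : x * den = num)
    {R : Type*} [CommRing R] [IsDomain R] (ordR : R → ℤ)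
    (hmul : ∀ a b : R, a ≠ 0 → b ≠ 0 → ordR (a * b) = ordR a + ordR b)
    (hadd : ∀ a b : R, a ≠ 0 → b ≠ 0 → a + b ≠ 0 → min (ordR a) (ordR b) ≤ ordR (a + b))
    {I : Type*} [Fintype I] (ρ : I → F₀ →+* R) (hρ_inj : ∀ i, Function.Injective (ρ i))
    (hρ_ne : Function.Injective ρ)
    (hcard : Fintype.card I = Module.finrank K⟮x⟯ F)
    (hK : ∀ i j (c : K), ρ i (algebraMap K F₀ c) = ρ j (algebraMap K F₀ c))
    (hnum : ∀ i j, ρ i num = ρ j num) (hden' : ∀ i j, ρ i den = ρ j den)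
    (hconst : ∀ i (c : K), c ≠ 0 → ordR (ρ i (algebraMap K F₀ c)) = 0)
    (s : ℕ) (hs : 0 < s) (hxs : ∀ i, ordR (ρ i num) - ordR (ρ i den) = s)
    {Γ : Type*} [Group Γ] [MulAction Γ I] (g : Γ)
    (hg : ∀ i (f : F₀), ordR (ρ (g • i) f) = ordR (ρ i f))
    (hdiv : ∀ i (f : F₀), f ≠ 0 →
      (s : ℤ) ∣ ordR (ρ i f) * (Function.minimalPeriod (g • ·) i : ℤ))
    (v : Place K F) (hv : 0 < v.ord x) : v.ord x ∣ (s : ℤ) := by
  classical
  obtain ⟨w, ι, hw, hι, hK', hK0, ht, hts, -, -⟩ :=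
    Fermat.Agent.S24.Generic.G3Adapter.exists_data x hx0 F₀ hF₀ num den hden hxnd ordR hmul hadd
      ρ hρ_inj hρ_ne hK hnum hden' hconst s hs hxs g hg hdiv
  have hmodfin : Module.Finite K⟮x⟯ F := hfin
  have htpos : ∀ i, 0 < w (ι i x) := fun i => by rw [hts i]; exact_mod_cast hs
  obtain ⟨i, hi⟩ :=
    Fermat.Agent.S24.FibreCount.exists_nonneg_iff ι hw hι hcard hK' hK0 ht hx0 htpos v hv
  have hv_eq := Fermat.Agent.S24.FibreCount.eq_placeOfEmb_of_forall ι hw hK0 hx0 htpos v i hi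
  obtain ⟨κ, -, -, h⟩ := Fermat.Agent.S24.FibreCount.exists_kappa ι hw hK0 hx0 htpos i
  have h1 := h x hx0
  rw [hts i, ← hv_eq] at h1
  exact ⟨κ, by rw [h1]; ring⟩

end Generic

section Finite

open ModularCurve CongruenceSubgroup UpperHalfPlane
open Fermat.Agent.S24.HolH Fermat.Agent.S24.JHol Fermat.Agent.S24.JFun
open Fermat.Agent.S24.Modular
open scoped MatrixGroups

/-- Ramification over a finite point `j = a`, from analytic uniformisation data: same hypotheses
as `Modular.card_fibre_of_thetaData`; every place over `j = a` has index dividing `s`. -/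
theorem ord_dvd_of_thetaData {N : ℕ} [NeZero N] (D : ThetaData N) (a : Kbar) (τ0 : ℍ)
    (g : SL(2, ℤ)) (s : ℕ) (hs : 0 < s)
    (hord : ordZ τ0 (jHol - algebraMap ℂ HolH (D.emb a)) = s)
    (hfix : g • τ0 = τ0)
    (hrot : ∀ f : HolH, f ≠ 0 → compSL g f = f → (s : ℤ) ∣ ordZ τ0 f)
    (hper : ∀ i : SL(2, ℤ) ⧸ Gamma0 N, g • i ≠ i → s ∣ Function.minimalPeriod (g • ·) i)
    (v : Place Kbar (FN N)) (hv : 0 < v.ord (jF N - algebraMap Kbar (FN N) a)) :
    v.ord (jF N - algebraMap Kbar (FN N) a) ∣ (s : ℤ) := by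
  classical
  letI : Fintype (SL(2, ℤ) ⧸ Gamma0 N) := Fintype.ofFinite _
  have htr := trdeg_FN N
  have hx0 := transcendental_jF N
  have hx := Fermat.Agent.S24.AdjoinShift.transcendental_sub_algebraMap hx0 a
  have hfin0 : FiniteDimensional Kbar⟮jF N⟯ (FN N) :=
    Fermat.Agent.S24.FF.finite_adjoin_simple htr hx0
  have hfin := Fermat.Agent.S24.AdjoinShift.finiteDimensional_sub_algebraMap (jF N) a hfin0
  have hginv : g⁻¹ • τ0 = τ0 := by
    conv_lhs => rw [← hfix]
    rw [inv_smul_smul]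
  have hne : jF N - algebraMap Kbar (FN N) a ≠ 0 := fun h => hx (h ▸ isAlgebraic_zero)
  refine ord_dvd_of_embeddings (jF N - algebraMap Kbar (FN N) a) hne hfin
    D.F₀ D.hF₀ (D.num a) 1 one_ne_zero (by simp [ThetaData.num]) (ordZ τ0)
    (fun a b ha hb => ordZ_mul τ0 ha hb) (fun a b ha hb hab => min_le_ordZ_add τ0 ha hb hab)
    D.ρ D.ρ_injective D.ρ_ne ?_ ?_ ?_ ?_ ?_ s hs ?_ g ?_ ?_ v hv
  · rw [Fermat.Agent.S24.AdjoinShift.finrank_sub_algebraMap, finrank_jF, ← Nat.card_eq_fintype_card,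
      Fermat.Agent.S24.Comb.card_quotient_Gamma0]
  · intro i j c
    rw [D.ρ_const, D.ρ_const]
  · intro i j
    rw [D.ρ_num, D.ρ_num]
  · intro i j
    rw [map_one, map_one]
  · intro i c hc
    rw [D.ρ_const]
    exact ordZ_algebraMap ((map_ne_zero_iff _ D.emb.injective).mpr hc)
  · intro i
    rw [D.ρ_num, map_one, ordZ_one, hord, sub_zero]
  · intro i f
    rw [D.ρ_smul, ordZ_compSL, hginv]
  · intro i f hf
    have hf0 : D.ρ i f ≠ 0 := (map_ne_zero_iff _ (D.ρ_injective i)).mpr hf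
    by_cases hi : g • i = i
    · have h1 : compSL g⁻¹ (D.ρ i f) = D.ρ i f := by rw [← D.ρ_smul, hi]
      have h2 : compSL g (D.ρ i f) = D.ρ i f := compSL_eq_self_of_inv h1
      exact Dvd.dvd.mul_right (hrot _ hf0 h2) _
    · have h1 : (s : ℤ) ∣ (Function.minimalPeriod (g • ·) i : ℤ) := by
        exact_mod_cast hper i hi
      exact Dvd.dvd.mul_left h1 _

/-- **Generic fibres are unramified**: for `a ≠ 0, 1728`, every place of `F_N` over `j = a`
has `ord (j - a) = 1`. -/
theorem ord_generic (N : ℕ) [NeZero N] (a : Kbar) (h0 : a ≠ 0) (h1 : a ≠ 1728)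
    (v : Place Kbar (FN N)) (hv : 0 < v.ord (jF N - algebraMap Kbar (FN N) a)) :
    v.ord (jF N - algebraMap Kbar (FN N) a) = 1 := by
  have hc0 : (thetaData N).emb a ≠ 0 := (map_ne_zero (thetaData N).emb).mpr h0
  have hc1 : (thetaData N).emb a ≠ 1728 := by
    intro h
    apply h1
    apply (thetaData N).emb.injective
    rw [h, map_ofNat]
  obtain ⟨τ0, -, hτ0⟩ := exists_ordZ_jHol_sub_eq_one hc0 hc1
  have h := ord_dvd_of_thetaData (thetaData N) a τ0 (1 : SL(2, ℤ)) 1 one_pos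
    (by rw [hτ0]; rfl) (one_smul _ _)
    (fun f _ _ => one_dvd _) (fun i hi => absurd (one_smul _ i) hi) v hv
  have h2 : v.ord (jF N - algebraMap Kbar (FN N) a) ≤ 1 :=
    Int.le_of_dvd one_pos (by exact_mod_cast h)
  omega

/-- **Fibre over `j = 0`**: ramification indices divide `3`. -/
theorem ord_zero_dvd (N : ℕ) [NeZero N] (v : Place Kbar (FN N)) (hv : 0 < v.ord (jF N)) :
    v.ord (jF N) ∣ 3 := by
  have hord : ordZ rho (jHol - algebraMap ℂ HolH ((thetaData N).emb 0)) = ((3 : ℕ) : ℤ) := by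
    rw [map_zero]
    exact ordZ_jHol_sub_zero_rho
  have h0 : jF N - algebraMap Kbar (FN N) 0 = jF N := by rw [map_zero, sub_zero]
  have h := ord_dvd_of_thetaData (thetaData N) 0 rho (ModularGroup.S * ModularGroup.T) 3
    (by norm_num) hord ST_smul_rho
    (fun f hf hinv => three_dvd_ordZ_of_ST_fixed ST_smul_rho hf hinv)
    (dvd_minimalPeriod_of_pow_smul _ 3 Nat.prime_three
      (fun i => by rw [ST_pow_three]; exact neg_one_smul_coset N i)) v (by rw [h0]; exact hv)
  rw [h0] at h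
  exact_mod_cast h

/-- **Fibre over `j = 1728`**: ramification indices divide `2`. -/
theorem ord_1728_dvd (N : ℕ) [NeZero N] (v : Place Kbar (FN N))
    (hv : 0 < v.ord (jF N - algebraMap Kbar (FN N) 1728)) :
    v.ord (jF N - algebraMap Kbar (FN N) 1728) ∣ 2 := by
  have hord : ordZ UpperHalfPlane.I (jHol - algebraMap ℂ HolH ((thetaData N).emb 1728))
      = ((2 : ℕ) : ℤ) := by
    rw [map_ofNat]
    exact ordZ_jHol_sub_I
  have h := ord_dvd_of_thetaData (thetaData N) 1728 UpperHalfPlane.I ModularGroup.S 2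
    (by norm_num) hord S_smul_I
    (fun f hf hinv => two_dvd_ordZ_of_S_fixed S_smul_I hf hinv)
    (dvd_minimalPeriod_of_pow_smul _ 2 Nat.prime_two
      (fun i => by rw [S_pow_two_eq_neg_one]; exact neg_one_smul_coset N i)) v hv
  exact_mod_cast h

end Finite

section Infinite

open HahnSeries ModularCurve CongruenceSubgroup
open Fermat.Agent.S24.Modular Fermat.Agent.S24.Puiseux Fermat.Agent.S24.Cusp
open scoped MatrixGroups

/-- Ramification over `j = ∞` from cusp embeddings (same hypotheses as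
`Puiseux.card_fibre_infty_of_embeddings`): every pole of `j` has order dividing `N`. -/
theorem ord_infty_dvd_of_embeddings (N : ℕ) [NeZero N]
    (F₀ : Subalgebra Kbar (FN N))
    (hF₀ : ∀ f : FN N, ∃ a b : F₀, (b : FN N) ≠ 0 ∧ f * b = a)
    (hj : jF N ∈ F₀)
    (ρ : SL(2, ℤ) ⧸ Gamma0 N → F₀ →+* LaurentSeries Kbar)
    (hρ_inj : ∀ i, Function.Injective (ρ i))
    (hρ_ne : Function.Injective ρ)
    (hconst : ∀ i (c : Kbar), ρ i (algebraMap Kbar F₀ c) = HahnSeries.C c)
    (hρj : ∀ i, ρ i ⟨jF N, hj⟩ = qExpand Kbar N (jqModC Kbar))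
    (ξ : Kbarˣ) (hξ : IsPrimitiveRoot ξ N)
    (hT : ∀ i (f : F₀), ρ (ModularGroup.T • i) f = scale ξ (ρ i f))
    (v : Place Kbar (FN N)) (hv : v.ord (jF N) < 0) :
    v.ord (jF N) ∣ (N : ℤ) := by
  classical
  have hx := transcendental_jF N
  have htr := trdeg_FN N
  have hfin : FiniteDimensional Kbar⟮jF N⟯ (FN N) :=
    Fermat.Agent.S24.FF.finite_adjoin_simple htr hx
  have hfin' : FiniteDimensional Kbar⟮(jF N)⁻¹⟯ (FN N) :=
    Fermat.Agent.S24.FF.finiteDimensional_adjoin_inv _ hfin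
  have hj0 : jF N ≠ 0 := fun h => hx (h ▸ isAlgebraic_zero)
  letI : Fintype (SL(2, ℤ) ⧸ Gamma0 N) := Fintype.ofFinite _
  have hN : 0 < N := Nat.pos_of_ne_zero (NeZero.ne N)
  have hordj : (qExpand Kbar N (jqModC Kbar)).order = -(N : ℤ) := by
    rw [order_qExpand, order_jqModC]
    ring
  have hinv : v.ord (jF N)⁻¹ = -v.ord (jF N) :=
    (Fermat.Agent.S24.FibreCount.isOrd_place v).map_inv hj0
  have hv' : 0 < v.ord (jF N)⁻¹ := by rw [hinv]; omega
  have key : v.ord (jF N)⁻¹ ∣ (N : ℤ) := by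
    refine ord_dvd_of_embeddings (jF N)⁻¹ (inv_ne_zero hj0) hfin'
      F₀ hF₀ (1 : F₀) ⟨jF N, hj⟩ ?_ ?_ (HahnSeries.order (Γ := ℤ) (R := Kbar))
      ?_ ?_ ρ hρ_inj hρ_ne ?_ ?_ ?_ ?_ ?_ N hN ?_ ModularGroup.T ?_ ?_ v hv'
    · intro h
      exact hj0 (congrArg Subtype.val h)
    · show (jF N)⁻¹ * jF N = ((1 : F₀) : FN N)
      rw [inv_mul_cancel₀ hj0]
      rfl
    · intro a b ha hb
      exact HahnSeries.order_mul ha hb
    · intro a b _ _ hab
      exact HahnSeries.min_order_le_order_add hab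
    · rw [Fermat.Agent.S24.FF.finrank_adjoin_inv, finrank_jF N,
        ← Fermat.Agent.S24.Comb.card_quotient_Gamma0 N, Nat.card_eq_fintype_card]
    · intro i j c
      rw [hconst, hconst]
    · intro i j
      rw [map_one, map_one]
    · intro i j
      rw [hρj, hρj]
    · intro i c _
      rw [hconst]
      exact HahnSeries.order_C
    · intro i
      rw [map_one, hρj, hordj, HahnSeries.order_one]
      ring
    · intro i f
      rw [hT, order_scale]
    · intro i f _
      set m := Function.minimalPeriod (fun i : SL(2, ℤ) ⧸ Gamma0 N => ModularGroup.T • i) i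
        with hm
      have hper : (fun i : SL(2, ℤ) ⧸ Gamma0 N => ModularGroup.T • i)^[m] i = i :=
        Function.isPeriodicPt_minimalPeriod _ i
      have hinv' : scale (ξ ^ m) (ρ i f) = ρ i f := by
        rw [← rho_iterate_T ρ ξ hT m i f, hper]
      have h := dvd_mul_order_of_scale_pow_eq hξ m hinv'
      rw [mul_comm] at h
      exact h
  rw [hinv] at key
  exact (neg_dvd).mp key

/-- **Fibre over `j = ∞`**: the pole order of `j` at every cusp place divides `N`. -/
theorem ord_infty_dvd (N : ℕ) [NeZero N] (v : Place Kbar (FN N)) (hv : v.ord (jF N) < 0) :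
    v.ord (jF N) ∣ (N : ℤ) := by
  refine ord_infty_dvd_of_embeddings N (qExpSys N).F₀ (qExpSys N).frac (qExpSys N).jF_mem
    (qExpSys N).rho ?_ (qExpSys N).rho_injective ?_ ?_ (qExpSys N).ζ⁻¹ (qExpSys N).hζ.inv ?_ v hv
  · intro x
    exact ((qExpSys N).cuspQ_apply_injective x).comp (qExpSys N).incl_injective
  · intro x c
    rw [QExpSys.rho_apply, AlgHom.commutes, AlgHom.commutes, algebraMap_laurentSeries_eq_single,
      HahnSeries.C_apply]
  · intro x
    rw [QExpSys.rho_apply, (qExpSys N).incl_jF, (qExpSys N).cuspQ_jG_one, QExpSys.jgen_one, coeffEmb_jq]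
  · intro x f
    rw [QExpSys.rho_apply, QExpSys.rho_apply, (qExpSys N).cuspQ_T_smul]

end Infinite

end Fermat.Agent.S30.Ramif
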