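/-
S30 / E2, horizontal half at non-branch points (helper70).

(T1) `exists_taylor_embeddings`: for `c ≠ 0, 1728` the function field `F_N` of `X₀(N)` over `ℚ̄`
has `ψ(N) = [SL₂(ℤ) : Γ₀(N)]` pairwise distinct embeddings into `ℂ((X))` (Taylor expansions at a
point `τ0` with `j τ0 = c`, composed with the coset representatives), all with the same
restriction to `ℚ̄(j)`, `j ↦ J = c + (unit) X + ⋯`.

(T2) `not_dvd_discr_of_generic`: junction with `Model.EmbDisc`: for a normal finite free
`R`-algebra `C` of rank `ψ(N)` mapping to `F_N` with dense image, and a prime element `P` of `R`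
"cutting out the point `j = c`", the trace discriminant of `C / R` is not divisible by `P`.
-/
import Fermat.Agent.S24.Modular.M4
import Fermat.Agent.S30.Model.EmbDisc

set_option autoImplicit false

noncomputable section

namespace Fermat.Agent.S30.Ramif.TaylorEmb

open UpperHalfPlane CongruenceSubgroup
open Fermat.Agent.S24.HolH Fermat.Agent.S24.JHol Fermat.Agent.S24.JFun
open Fermat.Agent.S24.Modular
open scoped MatrixGroups Topology

/-! ### Taylor series -/

/-- Taylor series of `f` at `z₀`. -/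
def tay (f : ℂ → ℂ) (z₀ : ℂ) : PowerSeries ℂ :=
  PowerSeries.mk fun n => iteratedDeriv n f z₀ / (n.factorial : ℂ)

variable {f g : ℂ → ℂ} {z₀ : ℂ}

theorem coeff_tay (f : ℂ → ℂ) (z₀ : ℂ) (n : ℕ) :
    PowerSeries.coeff n (tay f z₀) = iteratedDeriv n f z₀ / (n.factorial : ℂ) :=
  PowerSeries.coeff_mk _ _

theorem constantCoeff_tay (f : ℂ → ℂ) (z₀ : ℂ) :
    PowerSeries.constantCoeff (tay f z₀) = f z₀ := by
  rw [← PowerSeries.coeff_zero_eq_constantCoeff_apply, coeff_tay]
  simp

theorem tay_add (hf : AnalyticAt ℂ f z₀) (hg : AnalyticAt ℂ g z₀) :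
    tay (f + g) z₀ = tay f z₀ + tay g z₀ := by
  ext n
  simp only [coeff_tay, map_add]
  rw [iteratedDeriv_add hf.contDiffAt hg.contDiffAt, add_div]

theorem tay_mul (hf : AnalyticAt ℂ f z₀) (hg : AnalyticAt ℂ g z₀) :
    tay (f * g) z₀ = tay f z₀ * tay g z₀ := by
  ext n
  simp only [coeff_tay, iteratedDeriv_mul hf.contDiffAt hg.contDiffAt, PowerSeries.coeff_mul,
    Finset.Nat.sum_antidiagonal_eq_sum_range_succ_mk, Nat.succ_eq_add_one, Finset.sum_div]
  refine Finset.sum_congr rfl fun i hi ↦ ?_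
  rw [Nat.cast_choose ℂ (by simpa [Nat.lt_succ_iff] using hi : i ≤ n)]
  field_simp [Nat.factorial_ne_zero]

theorem tay_const (c : ℂ) (z₀ : ℂ) : tay (fun _ => c) z₀ = PowerSeries.C c := by
  ext n
  rw [coeff_tay, PowerSeries.coeff_C]
  rcases n with _ | n
  · simp
  · simp [iteratedDeriv_const]

theorem natCast_le_order_tay_iff (f : ℂ → ℂ) (z₀ : ℂ) (n : ℕ) :
    (n : ℕ∞) ≤ (tay f z₀).order ↔ ∀ i < n, iteratedDeriv i f z₀ = 0 := by
  constructor
  · intro h i hi
    have h0 := PowerSeries.coeff_of_lt_order (φ := tay f z₀) i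
      (lt_of_lt_of_le (by exact_mod_cast hi) h)
    rw [coeff_tay, div_eq_zero_iff] at h0
    rcases h0 with h0 | h0
    · exact h0
    · exact absurd h0 (by exact_mod_cast Nat.factorial_ne_zero i)
  · intro h
    refine PowerSeries.nat_le_order _ _ fun i hi => ?_
    rw [coeff_tay, h i hi, zero_div]

theorem order_tay (hf : AnalyticAt ℂ f z₀) : (tay f z₀).order = analyticOrderAt f z₀ :=
  ENat.eq_of_forall_natCast_le_iff fun n => by
    rw [natCast_le_order_tay_iff, natCast_le_analyticOrderAt_iff_iteratedDeriv_eq_zero hf]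

/-! ### The Taylor homomorphism on `HolH` -/

/-- Taylor expansion at `τ0` as a ring homomorphism on the ring of holomorphic functions on `ℍ`. -/
def taylorHol (τ0 : ℍ) : HolH →+* PowerSeries ℂ where
  toFun f := tay (toC f) (τ0 : ℂ)
  map_one' := by
    have h : toC (1 : HolH) = fun _ => (1 : ℂ) := rfl
    rw [h, tay_const, map_one]
  map_mul' f g := by
    rw [toC_mul]
    exact tay_mul (toC_analyticAt f τ0) (toC_analyticAt g τ0)
  map_zero' := by
    have h : toC (0 : HolH) = fun _ => (0 : ℂ) := rfl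
    rw [h, tay_const, map_zero]
  map_add' f g := by
    rw [toC_add]
    exact tay_add (toC_analyticAt f τ0) (toC_analyticAt g τ0)

theorem taylorHol_apply (τ0 : ℍ) (f : HolH) : taylorHol τ0 f = tay (toC f) (τ0 : ℂ) := rfl

theorem order_taylorHol (τ0 : ℍ) (f : HolH) : (taylorHol τ0 f).order = ordAt τ0 f :=
  order_tay (toC_analyticAt f τ0)

theorem taylorHol_injective (τ0 : ℍ) : Function.Injective (taylorHol τ0) := by
  rw [injective_iff_map_eq_zero]
  intro f hf
  have h := order_taylorHol τ0 f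
  rw [hf, PowerSeries.order_zero] at h
  exact ordAt_eq_top_iff.mp h.symm

theorem taylorHol_algebraMap (τ0 : ℍ) (c : ℂ) :
    taylorHol τ0 (algebraMap ℂ HolH c) = PowerSeries.C c := by
  have h : toC (algebraMap ℂ HolH c) = fun _ => c := rfl
  rw [taylorHol_apply, h, tay_const]

theorem constantCoeff_taylorHol (τ0 : ℍ) (f : HolH) :
    PowerSeries.constantCoeff (taylorHol τ0 f) = (f : ℍ → ℂ) τ0 := by
  rw [taylorHol_apply, constantCoeff_tay, toC_apply]

/-! ### (T1) the Taylor embeddings of `F_N` at a generic point -/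

/-- The embedding of `A₀(N)` into `ℂ((X))` attached to a coset and a base point. -/
def embA0 (N : ℕ) [NeZero N] (τ0 : ℍ) (i : SL(2, ℤ) ⧸ Gamma0 N) :
    Fermat.Agent.S24.Theta.A0 N →+* LaurentSeries ℂ :=
  (HahnSeries.ofPowerSeries ℤ ℂ).comp ((taylorHol τ0).comp ((thetaData N).ρ i))

theorem embA0_injective (N : ℕ) [NeZero N] (τ0 : ℍ) (i : SL(2, ℤ) ⧸ Gamma0 N) :
    Function.Injective (embA0 N τ0 i) :=
  HahnSeries.ofPowerSeries_injective.comp
    ((taylorHol_injective τ0).comp ((thetaData N).ρ_injective i))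

/-- The Taylor embedding of `F_N` into `ℂ((X))` attached to a coset and a base point. -/
def emb (N : ℕ) [NeZero N] (τ0 : ℍ) (i : SL(2, ℤ) ⧸ Gamma0 N) : FN N →+* LaurentSeries ℂ :=
  IsFractionRing.lift (A := Fermat.Agent.S24.Theta.A0 N) (embA0_injective N τ0 i)

theorem emb_coe (N : ℕ) [NeZero N] (τ0 : ℍ) (i : SL(2, ℤ) ⧸ Gamma0 N)
    (x : Fermat.Agent.S24.Theta.A0 N) : emb N τ0 i (x : FN N) = embA0 N τ0 i x :=
  IsFractionRing.lift_algebraMap (embA0_injective N τ0 i) x

theorem emb_injective_family (N : ℕ) [NeZero N] (τ0 : ℍ) : Function.Injective (emb N τ0) := by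
  intro i i' h
  apply (thetaData N).ρ_ne
  have key : ∀ y : Fermat.Agent.S24.Theta.A0 N, (thetaData N).ρ i y = (thetaData N).ρ i' y := by
    intro y
    have h1 : embA0 N τ0 i y = embA0 N τ0 i' y := by
      rw [← emb_coe, ← emb_coe, h]
    exact taylorHol_injective τ0 (HahnSeries.ofPowerSeries_injective h1)
  exact RingHom.ext key

theorem emb_algebraMap (N : ℕ) [NeZero N] (τ0 : ℍ) (i : SL(2, ℤ) ⧸ Gamma0 N) (a : Kbar) :
    emb N τ0 i (algebraMap Kbar (FN N) a) = HahnSeries.C ((thetaData N).emb a) := by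
  have h : algebraMap Kbar (FN N) a =
      ((algebraMap Kbar (Fermat.Agent.S24.Theta.A0 N) a : Fermat.Agent.S24.Theta.A0 N) : FN N) :=
    rfl
  rw [h, emb_coe]
  show HahnSeries.ofPowerSeries ℤ ℂ (taylorHol τ0 ((thetaData N).ρ i
    (algebraMap Kbar (thetaData N).F₀ a))) = _
  rw [(thetaData N).ρ_const, taylorHol_algebraMap, HahnSeries.ofPowerSeries_C]

theorem ρ_jF (N : ℕ) [NeZero N] (i : SL(2, ℤ) ⧸ Gamma0 N) :
    (thetaData N).ρ i ⟨jF N, (thetaData N).hj⟩ = jHol := by
  rw [ThetaData.ρ_apply, (thetaData N).θ_j, compSL_jHol]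

theorem emb_jF (N : ℕ) [NeZero N] (τ0 : ℍ) (i : SL(2, ℤ) ⧸ Gamma0 N) :
    emb N τ0 i (jF N) = HahnSeries.ofPowerSeries ℤ ℂ (taylorHol τ0 jHol) := by
  have h : jF N = ((⟨jF N, (thetaData N).hj⟩ : Fermat.Agent.S24.Theta.A0 N) : FN N) := rfl
  rw [h, emb_coe]
  show HahnSeries.ofPowerSeries ℤ ℂ (taylorHol τ0 ((thetaData N).ρ i
    ⟨jF N, (thetaData N).hj⟩)) = _
  rw [ρ_jF]

/-- **(T1)** For `c ≠ 0, 1728` the field `F_N` has `[SL₂(ℤ) : Γ₀(N)]` pairwise distinct
embeddings into `ℂ((X))` which agree on `ℚ̄(j)`: constants go to constants and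
`j ↦ J = c + (unit) · X + ⋯`. -/
theorem exists_taylor_embeddings (N : ℕ) [NeZero N] (c : Kbar) (h0 : c ≠ 0) (h1 : c ≠ 1728) :
    ∃ (J : PowerSeries ℂ) (σ : (SL(2, ℤ) ⧸ Gamma0 N) → FN N →+* LaurentSeries ℂ),
      PowerSeries.constantCoeff J = (thetaData N).emb c ∧ PowerSeries.coeff 1 J ≠ 0 ∧
      Function.Injective σ ∧
      (∀ i (a : Kbar), σ i (algebraMap Kbar (FN N) a) = HahnSeries.C ((thetaData N).emb a)) ∧
      (∀ i, σ i (jF N) = HahnSeries.ofPowerSeries ℤ ℂ J) := by
  have hc0 : (thetaData N).emb c ≠ 0 := (map_ne_zero (thetaData N).emb).mpr h0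
  have hc1 : (thetaData N).emb c ≠ 1728 := by
    intro h
    apply h1
    apply (thetaData N).emb.injective
    rw [h, map_ofNat]
  obtain ⟨τ0, hτ0, hord⟩ := exists_ordZ_jHol_sub_eq_one hc0 hc1
  refine ⟨taylorHol τ0 jHol, emb N τ0, ?_, ?_, emb_injective_family N τ0, emb_algebraMap N τ0,
    emb_jF N τ0⟩
  · rw [constantCoeff_taylorHol, jHol_apply, hτ0]
  · -- the order of `j - c` at `τ0` is one
    have hne := jHol_sub_ne_zero ((thetaData N).emb c)
    have h2 : ordAt τ0 (jHol - algebraMap ℂ HolH ((thetaData N).emb c)) = 1 := by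
      have h3 := ordAt_ne_top (τ0 := τ0) hne
      rw [ordZ] at hord
      have h4 : (ordAt τ0 (jHol - algebraMap ℂ HolH ((thetaData N).emb c))).toNat = 1 := by
        exact_mod_cast hord
      rw [← ENat.natCast_toNat h3, h4]
      rfl
    have h5 : (taylorHol τ0 (jHol - algebraMap ℂ HolH ((thetaData N).emb c))).order = (1 : ℕ) := by
      rw [order_taylorHol, h2]
      rfl
    have h6 := (PowerSeries.order_eq_nat.mp h5).1
    rw [map_sub, taylorHol_algebraMap, map_sub, PowerSeries.coeff_C] at h6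
    simpa using h6

/-! ### (T2) junction with `Model.EmbDisc` -/

/-- A ring homomorphism into Laurent series with values in power series factors through power
series. -/
theorem exists_powerSeries_restrict {A K : Type*} [CommRing A] [Field K]
    (ψ : A →+* LaurentSeries K)
    (h : ∀ a, ∃ y : PowerSeries K, HahnSeries.ofPowerSeries ℤ K y = ψ a) :
    ∃ φ : A →+* PowerSeries K, ∀ a, HahnSeries.ofPowerSeries ℤ K (φ a) = ψ a := by
  classical
  have hinj : Function.Injective (HahnSeries.ofPowerSeries ℤ K) :=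
    HahnSeries.ofPowerSeries_injective
  choose f hf using h
  exact ⟨{ toFun := f
           map_one' := hinj (by rw [hf, map_one, map_one])
           map_mul' := fun x y => hinj (by rw [hf, map_mul, map_mul, hf, hf])
           map_zero' := hinj (by rw [hf, map_zero, map_zero])
           map_add' := fun x y => hinj (by rw [hf, map_add, map_add, hf, hf]) }, hf⟩

/-- Two ring homomorphisms out of a field extension `F / k` which agree on `k` and on a set
generating `F` as a field over `k` are equal. -/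
theorem ringHom_ext_of_adjoin {k F L : Type*} [Field k] [Field F] [Algebra k F] [Field L]
    {S : Set F} (hS : IntermediateField.adjoin k S = ⊤) (σ τ : F →+* L)
    (hk : ∀ a : k, σ (algebraMap k F a) = τ (algebraMap k F a))
    (hS' : ∀ x ∈ S, σ x = τ x) : σ = τ := by
  let E : IntermediateField k F :=
    { RingHom.eqLocusField σ τ with algebraMap_mem' := fun a => hk a }
  have hle : IntermediateField.adjoin k S ≤ E :=
    IntermediateField.adjoin_le_iff.mpr (fun x hx => hS' x hx)
  rw [hS] at hle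
  ext x
  exact hle IntermediateField.mem_top

/-- First order Taylor expansion of a polynomial along a power series: if `f c = 0` and
`J = c + ⋯` then the linear coefficient of `f(J)` is `f'(c)` times that of `J`. -/
theorem coeff_one_eval₂_of_root {k : Type*} [Field k] (e : k →+* ℂ) (J : PowerSeries ℂ) (c : k)
    (hJ0 : PowerSeries.constantCoeff J = e c) (f : Polynomial k) (hf : f.eval c = 0) :
    PowerSeries.coeff 1 (Polynomial.eval₂ ((PowerSeries.C (R := ℂ)).comp e) J f) =
      e (f.derivative.eval c) * PowerSeries.coeff 1 J := by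
  set Cemb : k →+* PowerSeries ℂ := (PowerSeries.C (R := ℂ)).comp e with hCemb
  obtain ⟨κ, hκ⟩ := Polynomial.binomExpansion (f.map Cemb) (Cemb c) (J - Cemb c)
  rw [add_sub_cancel, Polynomial.eval_map, Polynomial.eval_map, Polynomial.eval₂_at_apply, hf,
    map_zero, zero_add, Polynomial.derivative_map, Polynomial.eval_map,
    Polynomial.eval₂_at_apply] at hκ
  have hy0 : PowerSeries.constantCoeff (J - Cemb c) = 0 := by
    rw [map_sub, hJ0, hCemb, RingHom.comp_apply, PowerSeries.constantCoeff_C, sub_self]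
  obtain ⟨y', hy'⟩ := PowerSeries.X_dvd_iff.mpr hy0
  have h2 : κ * (J - Cemb c) ^ 2 = PowerSeries.X ^ 2 * (κ * y' ^ 2) := by
    rw [hy']
    ring
  have h3 : PowerSeries.coeff 1 (κ * (J - Cemb c) ^ 2) = 0 := by
    rw [h2, PowerSeries.coeff_X_pow_mul']
    simp
  have h4 : PowerSeries.coeff 1 (J - Cemb c) = PowerSeries.coeff 1 J := by
    rw [map_sub, hCemb, RingHom.comp_apply, PowerSeries.coeff_C]
    simp
  rw [hκ, map_add, h3, add_zero, hCemb, RingHom.comp_apply, PowerSeries.coeff_C_mul, ← hCemb, h4]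

/-- **(T2)** Junction with `Model.EmbDisc`. Let `C` be a normal domain, finite free of rank
`[SL₂(ℤ) : Γ₀(N)]` over the Noetherian domain `R`, mapping to `F_N` with image generating `F_N`
over `ℚ̄`; let `c ≠ 0, 1728` and let `P` generate a height one prime of `R`. Assume that the
elements of `R` are rational functions of `j` regular at `j = c`, vanishing at `c` only if
divisible by `P`, and that `P` itself vanishes simply at `c`. Then `P` does not divide the trace
discriminant of `C / R`. -/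
theorem not_dvd_discr_of_generic (N : ℕ) [NeZero N] (c : Kbar) (h0 : c ≠ 0) (h1 : c ≠ 1728)
    {R C ι : Type*} [CommRing R] [IsDomain R] [IsNoetherianRing R] [CommRing C] [IsDomain C]
    [IsIntegrallyClosed C] [Algebra R C] [Fintype ι] [DecidableEq ι]
    (b : Module.Basis ι R C) (hcard : Fintype.card ι = Nat.card (SL(2, ℤ) ⧸ Gamma0 N))
    (P : R)
    (hht : ∀ 𝔮 : Ideal R, 𝔮.IsPrime → 𝔮 ≤ Ideal.span {P} → 𝔮 = ⊥ ∨ 𝔮 = Ideal.span {P})
    (iC : C →+* FN N) (hgen : IntermediateField.adjoin Kbar (Set.range iC) = ⊤)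
    (hR : ∀ r : R, ∃ f g : Polynomial Kbar, g.eval c ≠ 0 ∧
      iC (algebraMap R C r) * Polynomial.aeval (jF N) g = Polynomial.aeval (jF N) f ∧
      (f.eval c = 0 → P ∣ r))
    (hP : ∃ f g : Polynomial Kbar, g.eval c ≠ 0 ∧
      iC (algebraMap R C P) * Polynomial.aeval (jF N) g = Polynomial.aeval (jF N) f ∧
      f.eval c = 0 ∧ f.derivative.eval c ≠ 0) :
    ¬ P ∣ Algebra.discr R b := by
  classical
  obtain ⟨J, σ, hJ0, hJ1, hσinj, hσK, hσj⟩ := exists_taylor_embeddings N c h0 h1
  generalize (thetaData N).emb = e at hJ0 hσK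
  set Cemb : Kbar →+* PowerSeries ℂ := (PowerSeries.C (R := ℂ)).comp e with hCemb
  -- (a) evaluation of polynomials in `j`
  have hpoly : ∀ (i : SL(2, ℤ) ⧸ Gamma0 N) (f : Polynomial Kbar),
      σ i (Polynomial.aeval (jF N) f) =
        HahnSeries.ofPowerSeries ℤ ℂ (Polynomial.eval₂ Cemb J f) := by
    intro i f
    rw [Polynomial.aeval_def, Polynomial.hom_eval₂, Polynomial.hom_eval₂, hσj]
    congr 1
    ext a : 1
    simp only [RingHom.comp_apply, hCemb]
    rw [hσK]
    exact (HahnSeries.ofPowerSeries_C (e a)).symm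
  have hcc : ∀ f : Polynomial Kbar,
      PowerSeries.constantCoeff (Polynomial.eval₂ Cemb J f) = e (f.eval c) := by
    intro f
    rw [Polynomial.hom_eval₂, hJ0]
    have hcomp : (PowerSeries.constantCoeff (R := ℂ)).comp Cemb = e := by
      ext a : 1
      simp [hCemb]
    rw [hcomp, Polynomial.eval₂_at_apply]
  -- (b) the values on `R` are power series, independent of the coset
  have hval : ∀ (r : R) (f g : Polynomial Kbar), g.eval c ≠ 0 →
      iC (algebraMap R C r) * Polynomial.aeval (jF N) g = Polynomial.aeval (jF N) f →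
      ∃ G' : PowerSeries ℂ, Polynomial.eval₂ Cemb J g * G' = 1 ∧
        ∀ i, σ i (iC (algebraMap R C r)) =
          HahnSeries.ofPowerSeries ℤ ℂ (Polynomial.eval₂ Cemb J f * G') := by
    intro r f g hg hfg
    have hGu : IsUnit (Polynomial.eval₂ Cemb J g) := by
      rw [PowerSeries.isUnit_iff_constantCoeff, hcc]
      exact isUnit_iff_ne_zero.mpr ((map_ne_zero e).mpr hg)
    obtain ⟨G', hG'⟩ := hGu.exists_right_inv
    refine ⟨G', hG', fun i => ?_⟩
    have e1 := congrArg (σ i) hfg
    rw [map_mul, hpoly, hpoly] at e1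
    have e2 : σ i (iC (algebraMap R C r)) = σ i (iC (algebraMap R C r)) *
        HahnSeries.ofPowerSeries ℤ ℂ (Polynomial.eval₂ Cemb J g * G') := by
      rw [hG', map_one, mul_one]
    rw [e2, map_mul, ← mul_assoc, e1, ← map_mul]
  -- (c) the base map
  obtain ⟨i0⟩ : Nonempty (SL(2, ℤ) ⧸ Gamma0 N) := ⟨QuotientGroup.mk 1⟩
  obtain ⟨φ, hφ⟩ := exists_powerSeries_restrict ((σ i0).comp (iC.comp (algebraMap R C)))
    (fun r => by
      obtain ⟨f, g, hg, hfg, -⟩ := hR r
      obtain ⟨G', -, hG'⟩ := hval r f g hg hfg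
      exact ⟨_, (hG' i0).symm⟩)
  have hφ' : ∀ (r : R) (f g : Polynomial Kbar), g.eval c ≠ 0 →
      iC (algebraMap R C r) * Polynomial.aeval (jF N) g = Polynomial.aeval (jF N) f →
      ∃ G' : PowerSeries ℂ, Polynomial.eval₂ Cemb J g * G' = 1 ∧
        φ r = Polynomial.eval₂ Cemb J f * G' ∧
        ∀ i, σ i (iC (algebraMap R C r)) = HahnSeries.ofPowerSeries ℤ ℂ (φ r) := by
    intro r f g hg hfg
    obtain ⟨G', hG1, hG'⟩ := hval r f g hg hfg
    have h1 : φ r = Polynomial.eval₂ Cemb J f * G' := by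
      apply HahnSeries.ofPowerSeries_injective (Γ := ℤ)
      rw [hφ r, ← hG' i0]
      rfl
    exact ⟨G', hG1, h1, fun i => by rw [h1, hG' i]⟩
  have hφi : ∀ i r, σ i (iC (algebraMap R C r)) = HahnSeries.ofPowerSeries ℤ ℂ (φ r) := by
    intro i r
    obtain ⟨f, g, hg, hfg, -⟩ := hR r
    obtain ⟨G', -, -, h⟩ := hφ' r f g hg hfg
    exact h i
  have hG'0 : ∀ G G' : PowerSeries ℂ, G * G' = 1 → PowerSeries.constantCoeff G' ≠ 0 := by
    intro G G' h h0'
    have h2 := congrArg (PowerSeries.constantCoeff (R := ℂ)) h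
    rw [map_mul, h0', mul_zero, map_one] at h2
    exact zero_ne_one h2
  -- (d) the embeddings of `C`
  have : Module.Finite R C := Module.Finite.of_basis b
  have : Algebra.IsIntegral R C := Algebra.IsIntegral.of_finite R C
  have hlift : ∀ i, ∃ τ : C →+* PowerSeries ℂ,
      (∀ x, HahnSeries.ofPowerSeries ℤ ℂ (τ x) = σ i (iC x)) ∧ τ.comp (algebraMap R C) = φ :=
    fun i => Fermat.Agent.S30.Model.EmbDisc.exists_powerSeries_lift φ ((σ i).comp iC)
      (fun r => hφi i r)
  choose τ hτ hτφ using hlift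
  have hτinj : Function.Injective τ := by
    intro i i' h
    apply hσinj
    apply ringHom_ext_of_adjoin hgen
    · intro a
      rw [hσK, hσK]
    · rintro _ ⟨x, rfl⟩
      rw [← hτ i x, ← hτ i' x, h]
  -- (e) kernel and order conditions
  have hker : ∀ r : R, PowerSeries.constantCoeff (φ r) = 0 → P ∣ r := by
    intro r hr
    obtain ⟨f, g, hg, hfg, hdiv⟩ := hR r
    obtain ⟨G', hG1, h1, -⟩ := hφ' r f g hg hfg
    apply hdiv
    rw [h1, map_mul, hcc] at hr
    exact (map_eq_zero e).mp ((mul_eq_zero.mp hr).resolve_right (hG'0 _ _ hG1))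
  have hord : (φ P).order = 1 := by
    obtain ⟨f, g, hg, hfg, hf0, hf1⟩ := hP
    obtain ⟨G', hG1, h1, -⟩ := hφ' P f g hg hfg
    have hF0 : PowerSeries.constantCoeff (Polynomial.eval₂ Cemb J f) = 0 := by
      rw [hcc, hf0, map_zero]
    have hF1 : PowerSeries.coeff 1 (Polynomial.eval₂ Cemb J f) ≠ 0 := by
      rw [hCemb, coeff_one_eval₂_of_root e J c hJ0 f hf0]
      exact mul_ne_zero ((map_ne_zero e).mpr hf1) hJ1
    have h2 : (φ P).order = ((1 : ℕ) : ℕ∞) := by
      rw [PowerSeries.order_eq_nat]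
      constructor
      · rw [h1, mul_comm, Fermat.Agent.S30.Model.EmbDisc.coeff_mul_of_forall_lt _ _ 1
          (fun m hm => by
            have hm0 : m = 0 := by omega
            subst hm0
            simpa using hF0)]
        exact mul_ne_zero (hG'0 _ _ hG1) hF1
      · intro i hi
        have hi0 : i = 0 := by omega
        subst hi0
        rw [h1]
        simp [hF0]
    rw [h2]
    rfl
  -- (f) conclusion
  let _ : Fintype (SL(2, ℤ) ⧸ Gamma0 N) := Fintype.ofFinite _
  have eqv : ι ≃ (SL(2, ℤ) ⧸ Gamma0 N) :=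
    Fintype.equivOfCardEq (by rw [hcard, Nat.card_eq_fintype_card])
  exact Fermat.Agent.S30.Model.EmbDisc.not_dvd_discr b P hht φ hord hker (fun k => τ (eqv k))
    (fun k => hτφ (eqv k)) (hτinj.comp eqv.injective)

end Fermat.Agent.S30.Ramif.TaylorEmb
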