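import Fermat.Agent.S30.Ramif.AdjoinDual
import Fermat.Agent.S30.Model.Main
import Fermat.Agent.S30.Model.DiscUnit

set_option autoImplicit false

/-!
# Hypothesis (ii) of the MODEL THEOREM from places

`Model.UnramAt` / `Model.HorizUnram` (frozen in `S30/Model/Main.lean`) for the base ring
`E[u] = Algebra.adjoin E {u}`, deduced from the places form "every place of `L / E` over the
closed point `f(u) = 0` has `ord (f(u)) = 1`".
-/

namespace Fermat.Agent.S30.Ramif

open AlgebraicCurve IsDedekindDomain IntermediateField Polynomial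
open scoped IntermediateField.algebraAdjoinAdjoin

section Horiz

variable (E : Type*) {L : Type*} [Field E] [Field L] [Algebra E L] (u : L)

/-- **(H1)** Places form of "unramified over the closed point `f(u) = 0`" ⇒ `Model.UnramAt`
for `D = E[u]`, `q = f(u)`. -/
theorem unramAt_of_places [CharZero E] (hu : Transcendental E u) [FiniteDimensional E⟮u⟯ L]
    (f : E[X]) (hf : Irreducible f)
    (hv : ∀ v : Place E L, 0 ≤ v.ord u → 0 < v.ord (aeval u f) → v.ord (aeval u f) = 1) :
    Fermat.Agent.S30.Model.UnramAt (E := E) (IntermediateField.adjoin E {u})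
      (Algebra.adjoin E {u}) (aeval u f) := by
  classical
  have hPID : IsPrincipalIdealRing (Algebra.adjoin E {u}) := adjoin_isPrincipalIdealRing E u hu
  have hDedB : IsDedekindDomain (integralClosure (Algebra.adjoin E {u}) L) :=
    integralClosure.isDedekindDomain (Algebra.adjoin E {u}) E⟮u⟯ L
  have hFracB : IsFractionRing (integralClosure (Algebra.adjoin E {u}) L) L :=
    integralClosure.isFractionRing_of_finite_extension E⟮u⟯ L
  have hfinB : Module.Finite (Algebra.adjoin E {u}) (integralClosure (Algebra.adjoin E {u}) L) :=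
    IsIntegralClosure.finite (Algebra.adjoin E {u}) E⟮u⟯ L _
  have hfree : Module.Free (Algebra.adjoin E {u}) (integralClosure (Algebra.adjoin E {u}) L) :=
    Module.free_of_finite_type_torsion_free'
  have hloc : IsLocalization (Algebra.algebraMapSubmonoid
      (integralClosure (Algebra.adjoin E {u}) L) (nonZeroDivisors (Algebra.adjoin E {u}))) L :=
    IsIntegralClosure.isLocalization (Algebra.adjoin E {u}) E⟮u⟯ L _
  have hrank : Module.finrank (Algebra.adjoin E {u}) (integralClosure (Algebra.adjoin E {u}) L) =
      Module.finrank E⟮u⟯ L :=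
    (IsFractionRing.finrank_eq _ _ _ _).symm
  let β : Module.Basis (Fin (Module.finrank E⟮u⟯ L)) (Algebra.adjoin E {u})
      (integralClosure (Algebra.adjoin E {u}) L) :=
    Module.finBasisOfFinrankEq _ _ hrank
  have htrace : ∀ x : integralClosure (Algebra.adjoin E {u}) L,
      algebraMap (Algebra.adjoin E {u}) E⟮u⟯ (Algebra.trace (Algebra.adjoin E {u}) _ x) =
        Algebra.trace E⟮u⟯ L (x : L) := fun x =>
    Fermat.Agent.S30.Model.DiscUnit.algebraMap_trace_eq x
  refine ⟨fun i => (β i : L), fun i => (β i).2,
    ((Algebra.discr (Algebra.adjoin E {u}) β : Algebra.adjoin E {u}) : L),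
    (Algebra.discr (Algebra.adjoin E {u}) β).2, ?_, ?_⟩
  · -- the trace matrix over `E(u)` is the image of the trace matrix over `E[u]`
    have hM : Algebra.traceMatrix E⟮u⟯ (fun i => ((β i : integralClosure _ L) : L)) =
        (Algebra.traceMatrix (Algebra.adjoin E {u}) β).map
          (algebraMap (Algebra.adjoin E {u}) E⟮u⟯) := by
      ext i j
      rw [Matrix.map_apply, Algebra.traceMatrix_apply, Algebra.traceMatrix_apply,
        Algebra.traceForm_apply, Algebra.traceForm_apply, htrace]
      rfl
    have hdet : ((Algebra.traceMatrix (Algebra.adjoin E {u}) β).map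
        (algebraMap (Algebra.adjoin E {u}) E⟮u⟯)).det =
        algebraMap (Algebra.adjoin E {u}) E⟮u⟯ (Algebra.discr (Algebra.adjoin E {u}) β) := by
      rw [Algebra.discr_def, RingHom.map_det]
      rfl
    rw [hM, hdet]
    rfl
  · intro c hc hd
    set π : Algebra.adjoin E {u} := polyGen E u f with hπdef
    have hdvd : π ∣ Algebra.discr (Algebra.adjoin E {u}) β := ⟨⟨c, hc⟩, Subtype.ext hd⟩
    have hprime : Prime π := (polyGen_irreducible E u hu hf).prime
    refine Fermat.Agent.S30.Model.DiscUnit.not_dvd_discr_of_traceSelfDualAt β hprime ?_ hdvd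
    intro x hx
    have htr : ∀ y : L, IsIntegral (Algebra.adjoin E {u}) y →
        ∃ w : E[X], ((Algebra.trace E⟮u⟯ L ((x : L) * y) : E⟮u⟯) : L) = aeval u (f * w) := by
      intro y hy
      obtain ⟨a, ha⟩ := hx ⟨y, hy⟩
      obtain ⟨w, rfl⟩ := exists_polyGen_eq E u a
      refine ⟨w, ?_⟩
      have h1 := htrace (x * ⟨y, hy⟩)
      rw [ha, ← polyGen_mul] at h1
      have h2 := congrArg (fun k : E⟮u⟯ => (k : L)) h1
      exact h2.symm
    obtain ⟨z, hz, hxz⟩ := exists_isIntegral_eq_mul_of_places E u hu f hf hv (x : L) x.2 htr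
    refine ⟨⟨z, hz⟩, Subtype.ext ?_⟩
    rw [hxz]
    rfl

/-- **(H2)** Hypothesis (ii) of the MODEL THEOREM from places: if every place of `L / E` over
a closed point `f(u) = 0` of the affine `u`-line, other than the points `u = c` (`c ∈ S`), is
unramified over `E(u)`, then `Model.HorizUnram S u`. -/
theorem horizUnram_of_places {O : Type*} [CommRing O] [Algebra O E]
    [CharZero E] (hu : Transcendental E u) [FiniteDimensional E⟮u⟯ L]
    (S : Finset O)
    (hv : ∀ f : E[X], Irreducible f → (∀ c ∈ S, ¬ Associated f (X - C (algebraMap O E c))) →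
      ∀ v : Place E L, 0 ≤ v.ord u → 0 < v.ord (aeval u f) → v.ord (aeval u f) = 1) :
    Fermat.Agent.S30.Model.HorizUnram (E := E) S u :=
  fun f hf hS => unramAt_of_places E u hu f hf (hv f hf hS)

end Horiz

end Fermat.Agent.S30.Ramif
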