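import Fermat.Agent.S30.Ramif.Horiz
import Fermat.Agent.S30.Ramif.Places
import Fermat.Agent.S18.PlaceUp

set_option autoImplicit false

/-!
# Hypothesis (ii) of the MODEL THEOREM for `u = j` on the level-`N` function field over `E ⊆ ℚ̄`

`Model.HorizUnram S j` for `L = laurentBaseChange E (modularFunctionFieldFull N) ⊆ E((q))`,
`E` ANY intermediate field of `ℚ̄ / ℚ`, `S ∋ 0, 1728`:

* `ord_aeval_eq_ord_sub` (generic): at a place `P`, a split separable polynomial `g(t)` of
  positive order has exactly one root `a` with `ord_P (t - a) > 0`, and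
  `ord_P g(t) = ord_P (t - a)`;
* `ord_aeval_eq_one_of_up` (generic constant-field descent);
* `ord_aeval_j_eq_one`, `horizUnram_j` : the modular instance, from `Ramif.ord_generic`
  (S24 fibre analysis) and `S18.PlaceUp.exists_place_up` (`Lib.PlaceExt`).
-/

namespace Fermat.Agent.S30.Ramif

open AlgebraicCurve Polynomial

section Generic

variable {K F : Type*} [Field K] [Field F] [Algebra K F]

/-- A multiset of nonpositive integers has nonpositive sum. -/
theorem multiset_sum_nonpos_int (s : Multiset ℤ) (h : ∀ x ∈ s, x ≤ 0) : s.sum ≤ 0 := by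
  induction s using Multiset.induction with
  | empty => simp
  | cons a s ih =>
    rw [Multiset.sum_cons]
    have h1 := h a (Multiset.mem_cons_self a s)
    have h2 := ih fun x hx => h x (Multiset.mem_cons_of_mem hx)
    omega

/-- Order of a product over a multiset of nonzero elements. -/
theorem ord_multiset_prod (P : Place K F) (s : Multiset F) (hs : ∀ x ∈ s, x ≠ 0) :
    P.ord s.prod = (s.map P.ord).sum := by
  induction s using Multiset.induction with
  | empty => simp [Place.ord_one]
  | cons a s ih =>
    have ha : a ≠ 0 := hs a (Multiset.mem_cons_self a s)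
    have hs' : ∀ x ∈ s, x ≠ 0 := fun x hx => hs x (Multiset.mem_cons_of_mem hx)
    have hprod : s.prod ≠ 0 := Multiset.prod_ne_zero (fun h0 => hs' 0 h0 rfl)
    rw [Multiset.prod_cons, P.ord_mul ha hprod, ih hs', Multiset.map_cons, Multiset.sum_cons]

/-- At a place `P`, if a split separable polynomial `g` has `ord_P g(t) > 0` (`t` not a
constant), then there is a root `a` of `g` with `ord_P (t - a) > 0` and
`ord_P g(t) = ord_P (t - a)`. -/
theorem ord_aeval_eq_ord_sub (P : Place K F) (t : F) (ht : ∀ a : K, t ≠ algebraMap K F a)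
    (g : K[X]) (hsplit : g.Splits) (hsep : g.Separable) (hpos : 0 < P.ord (aeval t g)) :
    ∃ a : K, g.IsRoot a ∧ 0 < P.ord (t - algebraMap K F a) ∧
      P.ord (aeval t g) = P.ord (t - algebraMap K F a) := by
  classical
  have hg0 : g ≠ 0 := hsep.ne_zero
  have hlc : algebraMap K F g.leadingCoeff ≠ 0 := by
    simpa using (algebraMap K F).injective.ne (leadingCoeff_ne_zero.mpr hg0)
  have hne : ∀ a : K, t - algebraMap K F a ≠ 0 := fun a h => ht a (sub_eq_zero.mp h)
  -- evaluate the factorisation at `t`
  have hfac : aeval t g = algebraMap K F g.leadingCoeff *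
      (g.roots.map (fun a => t - algebraMap K F a)).prod := by
    conv_lhs => rw [hsplit.eq_prod_roots]
    rw [map_mul, aeval_C, map_multiset_prod, Multiset.map_map]
    congr 2
    refine Multiset.map_congr rfl fun a _ => ?_
    simp
  have hs : ∀ x ∈ g.roots.map (fun a => t - algebraMap K F a), x ≠ 0 := by
    intro x hx
    obtain ⟨a, -, rfl⟩ := Multiset.mem_map.mp hx
    exact hne a
  have hprod0 : (g.roots.map (fun a => t - algebraMap K F a)).prod ≠ 0 :=
    Multiset.prod_ne_zero (fun h0 => hs 0 h0 rfl)
  have hord : P.ord (aeval t g) =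
      (g.roots.map (fun a => P.ord (t - algebraMap K F a))).sum := by
    rw [hfac, P.ord_mul hlc hprod0, Fermat.Agent.S24.FF.ord_algebraMap, zero_add,
      ord_multiset_prod P _ hs, Multiset.map_map]
    rfl
  -- some root has positive order
  have hex : ∃ a ∈ g.roots, 0 < P.ord (t - algebraMap K F a) := by
    by_contra hcon
    push Not at hcon
    have : (g.roots.map (fun a => P.ord (t - algebraMap K F a))).sum ≤ 0 :=
      multiset_sum_nonpos_int _ fun x hx => by
        obtain ⟨a, ha, rfl⟩ := Multiset.mem_map.mp hx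
        exact hcon a ha
    omega
  obtain ⟨a, ha, hapos⟩ := hex
  refine ⟨a, (mem_roots hg0).mp ha, hapos, ?_⟩
  -- the other roots contribute `0`
  have hother : ∀ b ∈ g.roots.erase a, P.ord (t - algebraMap K F b) = 0 := by
    intro b hb
    have hba : b ≠ a := by
      intro h
      subst h
      exact (Multiset.Nodup.mem_erase_iff (nodup_roots hsep)).mp hb |>.1 rfl
    have hc : algebraMap K F a - algebraMap K F b ≠ 0 := by
      rw [← map_sub]
      simpa using (algebraMap K F).injective.ne (sub_ne_zero.mpr hba.symm)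
    have h1 : t - algebraMap K F b = (algebraMap K F a - algebraMap K F b) +
        (t - algebraMap K F a) := by ring
    have h2 : P.ord (algebraMap K F a - algebraMap K F b) = 0 := by
      rw [← map_sub]
      exact Fermat.Agent.S24.FF.ord_algebraMap P _
    rw [h1, (Fermat.Agent.S24.FF.ord_add_eq_of_lt P (by rw [h2]; exact hapos) hc (hne a)), h2]
  rw [hord, ← Multiset.cons_erase ha, Multiset.map_cons, Multiset.sum_cons]
  have hzero : ((g.roots.erase a).map (fun a => P.ord (t - algebraMap K F a))).sum = 0 := by
    apply Multiset.sum_eq_zero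
    intro x hx
    obtain ⟨b, hb, rfl⟩ := Multiset.mem_map.mp hx
    exact hother b hb
  rw [hzero, add_zero]

end Generic

section Descent

variable {E Ω L F : Type*} [Field E] [Field Ω] [IsAlgClosed Ω] [Field L] [Field F]
  [Algebra E Ω] [Algebra E L] [Algebra Ω F]

/-- **Constant field descent of "unramified at a closed point".**  `φ : L → F` a ring hom
compatible with `E → Ω`, `P` a place of `F / Ω` with `P.ord ∘ φ = v.ord`.  If the places of `F`
over the roots of a separable `f : E[X]` are unramified over `Ω(φ u)`, then `v.ord f(u) = 1`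
whenever it is positive. -/
theorem ord_aeval_eq_one_of_up (φ : L →+* F)
    (hφ : ∀ c : E, φ (algebraMap E L c) = algebraMap Ω F (algebraMap E Ω c))
    (v : Place E L) (P : Place Ω F) (hP : ∀ x : L, P.ord (φ x) = v.ord x)
    (u : L) (hu : ∀ a : Ω, φ u ≠ algebraMap Ω F a)
    (f : E[X]) (hf : f.Separable)
    (hgen : ∀ a : Ω, (f.map (algebraMap E Ω)).IsRoot a →
      0 < P.ord (φ u - algebraMap Ω F a) → P.ord (φ u - algebraMap Ω F a) = 1)
    (hpos : 0 < v.ord (aeval u f)) : v.ord (aeval u f) = 1 := by
  have hcomp : φ.comp (algebraMap E L) = (algebraMap Ω F).comp (algebraMap E Ω) :=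
    RingHom.ext hφ
  have hmap : φ (aeval u f) = aeval (φ u) (f.map (algebraMap E Ω)) := by
    rw [aeval_def, hom_eval₂, hcomp, aeval_def, eval₂_map]
  rw [← hP, hmap] at hpos ⊢
  obtain ⟨a, haroot, hapos, heq⟩ := ord_aeval_eq_ord_sub P (φ u) hu (f.map (algebraMap E Ω))
    (IsAlgClosed.splits _) hf.map hpos
  rw [heq]
  exact hgen a haroot hapos

end Descent

section Modular

open ModularCurve Fermat.Agent.S24.Modular

set_option synthInstance.maxHeartbeats 400000
set_option maxHeartbeats 1000000

local notation "Qb" => AlgebraicClosure ℚ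

variable (N : ℕ) [NeZero N] (E : IntermediateField ℚ Qb)

/-- **Unramifiedness of `L_E / E(j)` at the closed points other than `0`, `1728`**, places form.
`L_E = laurentBaseChange E (modularFunctionFieldFull N)`, `u = j` (as an element of `L_E`). -/
theorem ord_aeval_j_eq_one
    (u : ↥(laurentBaseChange E (modularFunctionFieldFull N)))
    (hu : (u : LaurentSeries E) = coeffEmb E jq)
    (f : E[X]) (hf : Irreducible f) (h0 : f.eval 0 ≠ 0) (h1728 : f.eval 1728 ≠ 0)
    (v : Place E ↥(laurentBaseChange E (modularFunctionFieldFull N)))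
    (hpos : 0 < v.ord (aeval u f)) : v.ord (aeval u f) = 1 := by
  obtain ⟨P, hP⟩ := Fermat.Agent.S18.PlaceUp.exists_place_up E (modularFunctionFieldFull N) v
  have hφu : Fermat.Agent.S18.PlaceUp.upHom E (modularFunctionFieldFull N) u = jF N := by
    apply Subtype.ext
    rw [Fermat.Agent.S18.PlaceUp.coe_upHom, hu, Fermat.Agent.S30.GaussDescent.up_coeffEmb]
    rfl
  refine ord_aeval_eq_one_of_up (Ω := Qb) (F := FN N)
    (Fermat.Agent.S18.PlaceUp.upHom E (modularFunctionFieldFull N)) ?_ v P hP u ?_ f
    hf.separable ?_ hpos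
  · intro c
    apply Subtype.ext
    rw [Fermat.Agent.S18.PlaceUp.coe_upHom]
    exact Fermat.Agent.S30.GaussDescent.up_algebraMap E c
  · intro a ha
    rw [hφu] at ha
    exact Fermat.Agent.S24.DegreeGen.jBar_not_mem_range N ⟨a, ha.symm⟩
  · intro a haroot hapos
    rw [hφu] at hapos ⊢
    have ha0 : a ≠ 0 := by
      rintro rfl
      apply h0
      have h1 : (f.map (algebraMap E Qb)).eval (algebraMap E Qb 0) = 0 := by
        rw [map_zero]; exact haroot
      rw [eval_map_apply] at h1
      exact (algebraMap E Qb).injective (by rw [h1, map_zero])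
    have ha1 : a ≠ 1728 := by
      rintro rfl
      apply h1728
      have h1 : (f.map (algebraMap E Qb)).eval (algebraMap E Qb 1728) = 0 := by
        rw [map_ofNat]; exact haroot
      rw [eval_map_apply] at h1
      exact (algebraMap E Qb).injective (by rw [h1, map_zero])
    exact ord_generic N a ha0 ha1 P hapos

/-- **Hypothesis (ii) of the MODEL THEOREM for `u = j`**: `Model.HorizUnram S j` as soon as
`S` contains `0` and `1728`. -/
theorem horizUnram_j {O : Type*} [CommRing O] [Algebra O E]
    (u : ↥(laurentBaseChange E (modularFunctionFieldFull N)))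
    (hu : (u : LaurentSeries E) = coeffEmb E jq)
    (htr : Transcendental E u)
    [FiniteDimensional (IntermediateField.adjoin E {u})
      ↥(laurentBaseChange E (modularFunctionFieldFull N))]
    (S : Finset O) (h0 : ∃ c ∈ S, algebraMap O E c = 0)
    (h1728 : ∃ c ∈ S, algebraMap O E c = 1728) :
    Fermat.Agent.S30.Model.HorizUnram (E := E) S u := by
  refine horizUnram_of_places E u htr S fun f hf hS v _ hpos => ?_
  obtain ⟨c0, hc0S, hc0⟩ := h0
  obtain ⟨c1, hc1S, hc1⟩ := h1728
  have key : ∀ a : E, f.eval a = 0 → Associated f (X - C a) := fun a ha =>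
    ((irreducible_X_sub_C a).associated_of_dvd hf (dvd_iff_isRoot.mpr ha)).symm
  refine ord_aeval_j_eq_one N E u hu f hf (fun h => ?_) (fun h => ?_) v hpos
  · exact hS c0 hc0S (by rw [hc0]; exact key 0 h)
  · exact hS c1 hc1S (by rw [hc1]; exact key 1728 h)

end Modular

end Fermat.Agent.S30.Ramif
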