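import Fermat.Agent.S30.Ramif.HorizJ
import Fermat.Agent.Lib.PlaceExt

set_option autoImplicit false

/-!
# Generic `Ω → E` descent of the places form of horizontal unramifiedness

`E ⊆ Ω` algebraic, `Ω` algebraically closed of characteristic zero; `L / E` a function field,
`Lb = L · Ω`.  If over `Ω` every place `w` of `Lb` with `ord_w (u - b) > 0`, `b ∉ T`, has
`ord_w (u - b) = 1`, then for every irreducible `f : E[X]` without root in `T` and every place
`v` of `L / E`, `ord_v f(u) > 0` implies `ord_v f(u) = 1`
(`ord_aeval_eq_one_of_bar`); consequently `Model.HorizUnram S u` as soon as the exceptional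
set `T` consists of (images of) elements of `S` (`horizUnram_of_bar`).
-/

namespace Fermat.Agent.S30.Ramif

open AlgebraicCurve Polynomial

section PlaceGlue

variable {E Ω L Lb : Type*} [Field E] [Field Ω] [Field L] [Field Lb] [CharZero E]
  [IsAlgClosed Ω] [Algebra E Ω] [Algebra.IsAlgebraic E Ω] [Algebra E L] [Algebra Ω Lb]
  [Algebra L Lb] [Algebra E Lb] [IsScalarTower E Ω Lb] [IsScalarTower E L Lb]

/-- **Generic `Ω → E` descent of the place form.** -/
theorem ord_aeval_eq_one_of_bar
    (hgen : IntermediateField.adjoin L (Set.range (algebraMap Ω Lb)) = ⊤) (u : L) (T : Set Ω)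
    (hbar : ∀ (w : Place Ω Lb) (b : Ω), b ∉ T →
      0 < w.ord (algebraMap L Lb u - algebraMap Ω Lb b) →
      w.ord (algebraMap L Lb u - algebraMap Ω Lb b) = 1)
    (f : E[X]) (hf : Irreducible f) (hfT : ∀ b ∈ T, aeval b f ≠ 0) (v : Place E L)
    (hpos : 0 < v.ord (aeval u f)) : v.ord (aeval u f) = 1 := by
  obtain ⟨w, hw⟩ := Fermat.Agent.Lib.PlaceExt.exists_place_above (Ω := Ω) hgen v
  have hφ : ∀ c : E,
      algebraMap L Lb (algebraMap E L c) = algebraMap Ω Lb (algebraMap E Ω c) := by
    intro c
    rw [← IsScalarTower.algebraMap_apply E L Lb, ← IsScalarTower.algebraMap_apply E Ω Lb]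
  by_cases hconst : ∃ a : Ω, algebraMap L Lb u = algebraMap Ω Lb a
  · -- `u` constant upstairs: `f(u)` is a constant, of order `0`
    exfalso
    obtain ⟨a, ha⟩ := hconst
    have hmap : algebraMap L Lb (aeval u f) = algebraMap Ω Lb (aeval a f) := by
      rw [← aeval_algebraMap_apply, ha]
      exact aeval_algebraMap_apply Lb a f
    rw [← hw, hmap, Fermat.Agent.S24.FF.ord_algebraMap] at hpos
    exact lt_irrefl _ hpos
  · push Not at hconst
    refine ord_aeval_eq_one_of_up (algebraMap L Lb) hφ v w hw u hconst f hf.separable ?_ hpos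
    intro a haroot hapos
    refine hbar w a (fun haT => hfT a haT ?_) hapos
    rw [aeval_def, ← eval_map]
    exact haroot

/-- **Hypothesis (ii) of the MODEL THEOREM by descent from `Ω`**: if over `Ω` the function `u`
is unramified at all finite points `u = b` outside `T`, and `T` consists of images of elements
of `S`, then `Model.HorizUnram S u`. -/
theorem horizUnram_of_bar {O : Type*} [CommRing O] [Algebra O E]
    (hgen : IntermediateField.adjoin L (Set.range (algebraMap Ω Lb)) = ⊤) (u : L)
    (htr : Transcendental E u) [FiniteDimensional (IntermediateField.adjoin E {u}) L]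
    (S : Finset O) (T : Set Ω)
    (hT : ∀ b ∈ T, ∃ c ∈ S, algebraMap E Ω (algebraMap O E c) = b)
    (hbar : ∀ (w : Place Ω Lb) (b : Ω), b ∉ T →
      0 < w.ord (algebraMap L Lb u - algebraMap Ω Lb b) →
      w.ord (algebraMap L Lb u - algebraMap Ω Lb b) = 1) :
    Fermat.Agent.S30.Model.HorizUnram (E := E) S u := by
  refine horizUnram_of_places E u htr S fun f hf hS v _ hpos =>
    ord_aeval_eq_one_of_bar hgen u T hbar f hf (fun b hb h0 => ?_) v hpos
  obtain ⟨c, hcS, rfl⟩ := hT b hb
  refine hS c hcS ?_
  have hroot : f.eval (algebraMap O E c) = 0 := by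
    have h1 : algebraMap E Ω (f.eval (algebraMap O E c)) = 0 := by
      rw [← h0, aeval_def, ← eval_map, eval_map_apply]
    exact (algebraMap E Ω).injective (by rw [h1, map_zero])
  exact ((irreducible_X_sub_C _).associated_of_dvd hf (dvd_iff_isRoot.mpr hroot)).symm

end PlaceGlue

end Fermat.Agent.S30.Ramif
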