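import Mathlib

set_option autoImplicit false

/-!
# Unramified at a closed point ⇒ field-trace self-duality

AKLB setting: `A` a Dedekind domain with fraction field `K`, `L / K` finite separable, `B` the
integral closure of `A` in `L`.  For `π : A`:

* `exists_eq_mul_of_trace_mem` : if no prime of `B` containing `π` divides the different, then
  `(∀ y, Tr_{L/K}(x y) ∈ π A) → x ∈ π B`;
* `not_dvd_differentIdeal_of_not_mem_sq` : a prime `P ∋ π` with `π ∉ P ^ 2` (and residue
  characteristic zero, `(π)` maximal) does not divide the different;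
* `exists_eq_mul_of_trace_mem_of_not_mem_sq` : the combination.
-/

namespace Fermat.Agent.S30.Ramif

open nonZeroDivisors

section Core

variable {A K L B : Type*} [CommRing A] [Field K] [CommRing B] [Field L]
  [Algebra A K] [Algebra B L] [Algebra A B] [Algebra K L] [Algebra A L]
  [IsScalarTower A K L] [IsScalarTower A B L]
  [IsDomain A] [IsFractionRing A K] [IsIntegralClosure B A L] [FiniteDimensional K L]
  [Algebra.IsSeparable K L] [IsIntegrallyClosed A] [IsDedekindDomain B] [Module.IsTorsionFree A B]
  [IsFractionRing B L]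

/-- **Trace self-duality at `π`.** If no prime of `B` containing `π` divides the different of
`B / A`, then every `x : B` whose trace form against `B` takes values in `π A` is divisible by
`π` in `B`. -/
theorem exists_eq_mul_of_trace_mem (π : A) (hπ : π ≠ 0)
    (hunr : ∀ P : Ideal B, P.IsPrime → algebraMap A B π ∈ P → ¬ P ∣ differentIdeal A B)
    (x : B)
    (hx : ∀ y : B, ∃ w : A,
      Algebra.trace K L (algebraMap B L (x * y)) = algebraMap A K (π * w)) :
    ∃ z : B, x = algebraMap A B π * z := by
  have hBL : Function.Injective (algebraMap B L) := IsFractionRing.injective B L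
  have hAK : Function.Injective (algebraMap A K) := IsFractionRing.injective A K
  have hπK : algebraMap A K π ≠ 0 := fun h => hπ (hAK (by rw [h, map_zero]))
  have hπL : algebraMap A L π ≠ 0 := by
    rw [IsScalarTower.algebraMap_apply A K L]
    exact fun h => hπK ((algebraMap K L).injective (by rw [h, map_zero]))
  -- `ξ = x / π` lies in the trace dual of `B`
  set ξ : L := algebraMap B L x / algebraMap A L π with hξ
  have hξdual : ξ ∈ Submodule.traceDual A K (1 : Submodule B L) := by
    rw [Submodule.mem_traceDual]
    intro a ha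
    obtain ⟨y, rfl⟩ := Submodule.mem_one.mp ha
    obtain ⟨w, hw⟩ := hx y
    refine ⟨w, ?_⟩
    rw [Algebra.traceForm_apply]
    have h1 : ξ * algebraMap B L y = (algebraMap A K π)⁻¹ • algebraMap B L (x * y) := by
      rw [hξ, Algebra.smul_def, map_inv₀, ← IsScalarTower.algebraMap_apply A K L, map_mul]
      field_simp
    rw [h1, map_smul, hw, map_mul, smul_eq_mul, ← mul_assoc, inv_mul_cancel₀ hπK, one_mul]
  -- elements of the different multiply `ξ` into `B`
  have hdiff : ∀ d ∈ differentIdeal A B, ∃ b : B, d * x = algebraMap A B π * b := by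
    intro d hd
    have h1 : algebraMap B L d ∈ IsLocalization.coeSubmodule L (differentIdeal A B) :=
      (IsLocalization.mem_coeSubmodule L _).mpr ⟨d, hd, rfl⟩
    rw [coeSubmodule_differentIdeal A K, Submodule.mem_div_iff_forall_mul_mem] at h1
    obtain ⟨b, hb⟩ := Submodule.mem_one.mp (h1 ξ hξdual)
    refine ⟨b, hBL ?_⟩
    rw [map_mul, map_mul, ← IsScalarTower.algebraMap_apply A B L, hb, hξ]
    field_simp
  -- the different is coprime to `π`
  have hcop : differentIdeal A B ⊔ Ideal.span {algebraMap A B π} = ⊤ := by
    by_contra hne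
    obtain ⟨M, hM, hle⟩ := Ideal.exists_le_maximal _ hne
    have hMprime : M.IsPrime := hM.isPrime
    have h1 : algebraMap A B π ∈ M :=
      hle (Ideal.mem_sup_right (Ideal.subset_span (Set.mem_singleton _)))
    have h2 : M ∣ differentIdeal A B := Ideal.dvd_iff_le.mpr (le_sup_left.trans hle)
    exact hunr M hMprime h1 h2
  obtain ⟨d, hd, c, hc, hdc⟩ := Submodule.mem_sup.mp
    ((Ideal.eq_top_iff_one _).mp hcop)
  obtain ⟨c', rfl⟩ := Ideal.mem_span_singleton'.mp hc
  obtain ⟨b, hb⟩ := hdiff d hd
  refine ⟨b + c' * x, ?_⟩
  calc x = (d + c' * algebraMap A B π) * x := by rw [hdc, one_mul]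
    _ = d * x + c' * algebraMap A B π * x := by ring
    _ = algebraMap A B π * (b + c' * x) := by rw [hb]; ring

end Core

attribute [local instance] FractionRing.liftAlgebra FractionRing.isScalarTower_liftAlgebra
  Ideal.Quotient.field

section Unram

variable {A B : Type*} [CommRing A] [CommRing B] [Algebra A B]
  [IsDedekindDomain A] [IsDedekindDomain B] [Module.IsTorsionFree A B] [Module.Finite A B]
  [Algebra.IsSeparable (FractionRing A) (FractionRing B)]

/-- A prime `P` of `B` with `π ∈ P`, `π ∉ P ^ 2`, where `(π)` is a maximal ideal of `A` and the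
residue characteristic is zero (`A` is a `ℚ`-algebra), does not divide the different of `B / A`. -/
theorem not_dvd_differentIdeal_of_not_mem_sq [Algebra ℚ A] (π : A)
    (hmax : (Ideal.span {π} : Ideal A).IsMaximal)
    (P : Ideal B) [hPprime : P.IsPrime] (hP : algebraMap A B π ∈ P)
    (hP2 : algebraMap A B π ∉ P ^ 2) :
    ¬ P ∣ differentIdeal A B := by
  classical
  set p : Ideal A := Ideal.span {π} with hp
  have hPbot : P ≠ ⊥ := by
    rintro rfl
    apply hP2
    rw [Ideal.mem_bot] at hP
    rw [hP]
    exact zero_mem _
  have hPmax : P.IsMaximal := Ideal.IsPrime.isMaximal hPprime hPbot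
  have hmap : Ideal.map (algebraMap A B) p = Ideal.span {algebraMap A B π} := by
    rw [hp, Ideal.map_span, Set.image_singleton]
  have hle : Ideal.map (algebraMap A B) p ≤ P := by
    rw [hmap, Ideal.span_le, Set.singleton_subset_iff]
    exact hP
  obtain ⟨Q, hQ⟩ := Ideal.dvd_iff_le.mpr hle
  have hcop : IsCoprime P Q := by
    rw [Ideal.isCoprime_iff_sup_eq]
    by_contra hne
    have h1 : P = P ⊔ Q := hPmax.eq_of_le hne le_sup_left
    have h2 : Q ≤ P := by
      rw [h1]
      exact le_sup_right
    obtain ⟨Q', hQ'⟩ := Ideal.dvd_iff_le.mpr h2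
    apply hP2
    have h3 : Ideal.map (algebraMap A B) p ≤ P ^ 2 := by
      rw [hQ, hQ', ← mul_assoc, ← pow_two]
      exact Ideal.mul_le_left
    exact h3 (by rw [hmap]; exact Ideal.subset_span (Set.mem_singleton _))
  have hover : P.LiesOver p := by
    constructor
    refine hmax.eq_of_le ?_ ?_
    · intro h
      have h1 : (1 : A) ∈ P.under A := by rw [h]; exact Submodule.mem_top
      rw [Ideal.under_def, Ideal.mem_comap, map_one] at h1
      exact hPprime.ne_top ((Ideal.eq_top_iff_one _).mpr h1)
    · rw [hp, Ideal.span_le, Set.singleton_subset_iff]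
      exact hP
  have hcz : CharZero (A ⧸ p) := algebraRat.charZero (A ⧸ p)
  have hsep : Algebra.IsSeparable (A ⧸ p) (B ⧸ P) :=
    Algebra.IsAlgebraic.isSeparable_of_perfectField
  exact not_dvd_differentIdeal_of_isCoprime_of_isSeparable A P Q hcop hQ.symm

end Unram

section Combined

variable {A K L B : Type*} [CommRing A] [Field K] [CommRing B] [Field L]
  [Algebra A K] [Algebra B L] [Algebra A B] [Algebra K L] [Algebra A L]
  [IsScalarTower A K L] [IsScalarTower A B L]
  [IsDedekindDomain A] [IsFractionRing A K] [IsIntegralClosure B A L]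
  [FiniteDimensional K L] [IsDedekindDomain B] [Module.IsTorsionFree A B]
  [IsFractionRing B L] [Algebra ℚ A]

/-- **Unramified closed point ⇒ field-trace self-duality** (residue characteristic zero).
`(π)` a maximal ideal of the Dedekind domain `A ⊇ ℚ`, and `π ∉ P ^ 2` for every prime `P ∋ π`
of the integral closure `B` of `A` in the finite extension `L / K`.  Then
`(∀ y ∈ B, Tr_{L/K}(x y) ∈ π A) → x ∈ π B`. -/
theorem exists_eq_mul_of_trace_mem_of_not_mem_sq (π : A)
    (hmax : (Ideal.span {π} : Ideal A).IsMaximal)
    (hram : ∀ P : Ideal B, P.IsPrime → algebraMap A B π ∈ P → algebraMap A B π ∉ P ^ 2)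
    (x : B)
    (hx : ∀ y : B, ∃ w : A,
      Algebra.trace K L (algebraMap B L (x * y)) = algebraMap A K (π * w)) :
    ∃ z : B, x = algebraMap A B π * z := by
  have hcK : CharZero K := by
    have : Algebra ℚ K := ((algebraMap A K).comp (algebraMap ℚ A)).toAlgebra
    exact algebraRat.charZero K
  have hsepKL : Algebra.IsSeparable K L := Algebra.IsAlgebraic.isSeparable_of_perfectField
  have hfin : Module.Finite A B := IsIntegralClosure.finite A K L B
  have hsep : Algebra.IsSeparable (FractionRing A) (FractionRing B) := by
    have hcF : CharZero (FractionRing A) := by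
      have : Algebra ℚ (FractionRing A) :=
        ((algebraMap A (FractionRing A)).comp (algebraMap ℚ A)).toAlgebra
      exact algebraRat.charZero _
    have : Module.Finite (FractionRing A) (FractionRing B) :=
      Module.Finite.of_isLocalization A B A⁰
    exact Algebra.IsAlgebraic.isSeparable_of_perfectField
  have hπ : π ≠ 0 := by
    rintro rfl
    have h1 := hram ⊥ Ideal.isPrime_bot (by rw [map_zero]; exact zero_mem _)
    exact h1 (by rw [map_zero]; exact zero_mem _)
  refine exists_eq_mul_of_trace_mem π hπ (fun P hP hπP => ?_) x hx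
  have := hP
  exact not_dvd_differentIdeal_of_not_mem_sq π hmax P hπP (hram P hP hπP)

end Combined

end Fermat.Agent.S30.Ramif
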